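import Mathlib
import Fermat.Agent.Lib.GenusEq.Bridge
import Fermat.Agent.S24.LocalDiff
import Fermat.Agent.S17.Pts.Galois

set_option autoImplicit false

/-!
# S17, package H, seat GB-KAPPA: the derivation `d/dx` of a function field (generic part)

`K` algebraically closed of characteristic `0`, `F` a function field over `K`
(`h : IsFunctionFieldOver K F x`).

* `kdDeriv h`            : the derivation `d/dx : F → F`  (`kdDeriv h x = 1`);
* `kdDeriv_eq_mul`       : every `K`-derivation `δ` of `F` is `δ f = (d f/dx) * δ x`;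
* `kdDeriv_eq_zero`      : `d f / dx = 0` only for constants `f`;
* `kdDeriv_ord`          : `ord_v (d z/dx) = ord_v z - 1 - ord_v (dx)` if `ord_v z ≠ 0`;
* `kdDeriv_ord_nonneg`   : `d/dx` preserves the local ring at `v` if `x - c` is a uniformizer;
* `kdDeriv_ev_div`       : `(f / (x - c))(v) = (d f/dx)(v)` if `f(v) = 0`, `x - c` a uniformizer;
* `kdDeriv_smul`         : `g • (d f/dx) = d (g • f)/dx` for a semilinear automorphism fixing `x`;
* `kd_kap_smul`          : `ord_{g v} (dx) = ord_v (dx)` for such `g`.
-/

noncomputable section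

open AlgebraicCurve KaehlerDifferential

namespace Fermat.Agent.S17.Pos

open Fermat.Agent.S24Diff Fermat.Agent.GenusEq

variable {K F : Type*} [Field K] [Field F] [Algebra K F] [IsAlgClosed K] [CharZero K] {x : F}

/-- the derivation `d/dx` -/
def kdDeriv (h : IsFunctionFieldOver K F x) : Derivation K F F :=
  derivOf x (D_ne_zero h h.transcendental) (span_D_eq_top h h.transcendental)

theorem kdDeriv_smul_D (h : IsFunctionFieldOver K F x) (f : F) :
    kdDeriv h f • KaehlerDifferential.D K F x = KaehlerDifferential.D K F f :=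
  derivOf_smul x _ _ f

theorem kdDeriv_self (h : IsFunctionFieldOver K F x) : kdDeriv h x = 1 :=
  derivOf_self x _ _

/-- every derivation is a multiple of `d/dx` -/
theorem kdDeriv_eq_mul (h : IsFunctionFieldOver K F x) (δ : Derivation K F F) (f : F) :
    δ f = kdDeriv h f * δ x := by
  have h1 : ∀ y : F, δ.liftKaehlerDifferential (KaehlerDifferential.D K F y) = δ y :=
    fun y => Derivation.liftKaehlerDifferential_comp_D δ y
  rw [← h1 f, ← kdDeriv_smul_D h f, map_smul, h1 x, smul_eq_mul]

/-- the kernel of `d/dx` consists of the constants -/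
theorem kdDeriv_eq_zero (h : IsFunctionFieldOver K F x) {f : F} (hf : kdDeriv h f = 0) :
    ∃ c : K, algebraMap K F c = f := by
  by_contra hcon
  have htr : Transcendental K f := fun halg => hcon (exists_algebraMap_eq_of_isAlgebraic halg)
  have h1 := D_ne_zero h htr
  rw [← kdDeriv_smul_D h f, hf, zero_smul] at h1
  exact h1 rfl

theorem kdDeriv_ne_zero_of_ord (h : IsFunctionFieldOver K F x) (v : Place K F) {z : F}
    (hz : v.ord z ≠ 0) : kdDeriv h z ≠ 0 := by
  intro h0
  obtain ⟨c, rfl⟩ := kdDeriv_eq_zero h h0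
  exact hz (ord_algebraMap_eq_zero v c)

/-- `ord_v (d z / dx) = ord_v z - 1 - ord_v (dx)` whenever `ord_v z ≠ 0` -/
theorem kdDeriv_ord (h : IsFunctionFieldOver K F x) (v : Place K F) {z : F}
    (hz : v.ord z ≠ 0) : v.ord (kdDeriv h z) = v.ord z - 1 - kap x v := by
  have h1 := ordDifferential_D_of_ord_ne_zero h v hz
  rw [← kdDeriv_smul_D h z, ordDifferential_smul_D h v (kdDeriv_ne_zero_of_ord h v hz)] at h1
  omega

end Fermat.Agent.S17.Pos
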