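import Mathlib
import Fermat.Agent.S17.H.Pos.Kappa.Deriv
import Fermat.Agent.S24.Residue

set_option autoImplicit false

/-!
# S17, package H, seat GB-KAPPA: the derivation `d/dx` at a place where `x - c` is a uniformizer

* `kd_exists_irreducible`  : an element of order `1` is an irreducible element of the local ring;
* `kdDeriv_ord_nonneg`     : `d/dx` preserves the local ring at `v` if `x - c` is a uniformizer;
* `kdDeriv_ev_div`         : `(f / (x - c))(v) = (d f/dx)(v)` if `f(v) = 0`;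
* `kd_kap_eq_zero`         : `ord_v (dx) = 0` if `x - c` is a uniformizer at `v`.
-/

noncomputable section

open AlgebraicCurve KaehlerDifferential

namespace Fermat.Agent.S17.Pos

open Fermat.Agent.S24Diff Fermat.Agent.GenusEq Fermat.Agent.RR

variable {K F : Type*} [Field K] [Field F] [Algebra K F]

/-- an element of order `1` is (the image of) an irreducible element of the local ring -/
theorem kd_exists_irreducible (v : Place K F) {π : F} (hπ : v.ord π = 1) :
    ∃ ϖ : v.toValuationSubring, Irreducible ϖ ∧ (ϖ : F) = π := by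
  have hπ0 : π ≠ 0 := by
    rintro rfl
    rw [v.ord_zero] at hπ
    exact zero_ne_one hπ
  obtain ⟨ϖ₀, hϖ₀⟩ := IsDiscreteValuationRing.exists_irreducible v.toValuationSubring
  obtain ⟨u, hu⟩ := v.exists_unit_mul_zpow hπ0 hϖ₀
  rw [hπ, zpow_one] at hu
  refine ⟨(u : v.toValuationSubring) * ϖ₀, ?_, ?_⟩
  · exact (irreducible_units_mul u).mpr hϖ₀
  · rw [hu]
    rfl

variable [IsAlgClosed K] [CharZero K] {x : F}

/-- `d/dx` preserves the local ring at `v` if `x - c` is a uniformizer at `v` -/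
theorem kdDeriv_ord_nonneg (h : IsFunctionFieldOver K F x) (v : Place K F) (c : K)
    (hπ : v.ord (x - algebraMap K F c) = 1) {f : F} (hf : 0 ≤ v.ord f) :
    0 ≤ v.ord (kdDeriv h f) := by
  obtain ⟨ϖ, hϖ, hϖe⟩ := kd_exists_irreducible v hπ
  have hδ : kdDeriv h (ϖ : F) = 1 := by
    rw [hϖe, map_sub, Derivation.map_algebraMap, sub_zero, kdDeriv_self]
  have := derivation_mem h v ϖ hϖ (kdDeriv h) hδ f (Fermat.Agent.S24Res.mem_of_ord_nonneg v hf)
  exact Fermat.Agent.S24Res.ord_nonneg_of_mem v this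

/-- `ord_v (dx) = 0` if `x - c` is a uniformizer at `v` -/
theorem kd_kap_eq_zero (h : IsFunctionFieldOver K F x) (v : Place K F) (c : K)
    (hπ : v.ord (x - algebraMap K F c) = 1) : kap x v = 0 := by
  rw [kap_of_pos h v c (by rw [hπ]; exact one_pos), hπ]
  rfl

/-- `(f / (x - c))(v) = (d f/dx)(v)` if `f` is regular at `v` with `f(v) = 0` and `x - c` is a
uniformizer at `v` -/
theorem kdDeriv_ev_div (hRR : IsRRField K F) (h : IsFunctionFieldOver K F x) (v : Place K F)
    (c : K) (hπ : v.ord (x - algebraMap K F c) = 1) {f : F} (hf : 0 ≤ v.ord f)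
    (hf0 : Pts.ev v f = 0) :
    0 ≤ v.ord (f / (x - algebraMap K F c)) ∧
      Pts.ev v (f / (x - algebraMap K F c)) = Pts.ev v (kdDeriv h f) := by
  rcases eq_or_ne f 0 with rfl | hfne
  · simp
  set π : F := x - algebraMap K F c with hπdef
  have hπ0 : π ≠ 0 := by
    intro h0
    rw [h0, v.ord_zero] at hπ
    exact zero_ne_one hπ
  have hpos : 0 < v.ord f := (Pts.ev_eq_zero_iff hRR v hfne hf).mp hf0
  have hq : v.ord (f / π) = v.ord f - 1 := by
    rw [div_eq_mul_inv, v.ord_mul hfne (inv_ne_zero hπ0), v.ord_inv, hπ]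
    ring
  have hq0 : 0 ≤ v.ord (f / π) := by rw [hq]; omega
  refine ⟨hq0, ?_⟩
  have hfe : f = π * (f / π) := by field_simp
  have hδπ : kdDeriv h π = 1 := by
    rw [hπdef, map_sub, Derivation.map_algebraMap, sub_zero, kdDeriv_self]
  have hd : kdDeriv h f = f / π + π * kdDeriv h (f / π) := by
    conv_lhs => rw [hfe]
    rw [Derivation.leibniz, hδπ, smul_eq_mul, smul_eq_mul, mul_one, add_comm]
  have hdq : 0 ≤ v.ord (kdDeriv h (f / π)) := kdDeriv_ord_nonneg h v c hπ hq0
  have hπnn : 0 ≤ v.ord π := by rw [hπ]; exact zero_le_one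
  have hπev : Pts.ev v π = 0 := (Pts.ev_eq_zero_iff hRR v hπ0 hπnn).mpr (by rw [hπ]; exact one_pos)
  have hprod : 0 ≤ v.ord (π * kdDeriv h (f / π)) := by
    rcases eq_or_ne (kdDeriv h (f / π)) 0 with h0 | h0
    · rw [h0, mul_zero, v.ord_zero]
    · rw [v.ord_mul hπ0 h0]; omega
  rw [hd, Pts.ev_add hRR v hq0 hprod, Pts.ev_mul hRR v hπnn hdq, hπev, zero_mul, add_zero]

end Fermat.Agent.S17.Pos
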