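import Mathlib
import Fermat.Agent.S17.H.Pos.Kappa.Local
import Fermat.Agent.S17.H.ImmCurve

set_option autoImplicit false

/-!
# S17, package H, seat GB-KAPPA: the Gauss map `w_{bc} = φ_c D φ_b - φ_b D φ_c`, `D = d/dφ_a`

`F` a function field over `ℚ̄`, `φ` an embedding basis of `L(e P₀)`, `e ≥ 2 g + 1`,
`h : IsFunctionFieldOver Qbar F x` (in the application `x = φ a`).

* `kdW h φ p`           : the function `φ_{p.2} D φ_{p.1} - φ_{p.1} D φ_{p.2}`;
* `kdW_ne_zero`         : `w_p ≠ 0` for `p.1 ≠ p.2`;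
* `kdW_exists_ord`      : at every `P` some `w_p`, `p.1 ≠ p.2`, has
                          `ord_P w_p = - 2 (e P₀)(P) - ord_P (dx)`;
* `kdW_ord_nonneg`      : `w_p` is regular at `P ≠ P₀` if `x - c` is a uniformizer at `P`;
* `kdW_theta`           : `θ_v(P; x - x(P)) = max_p |w_p(P)|_v / ‖φ(P)‖_v²` at such a point.
-/

noncomputable section

open AlgebraicCurve KaehlerDifferential

namespace Fermat.Agent.S17.Pos

open Fermat.Agent.S24Diff Fermat.Agent.GenusEq Fermat.Agent.RR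

variable {F : Type*} [Field F] [Algebra Qbar F] {x : F}
variable {P₀ : Place Qbar F} {e r : ℕ} {φ : Fin (r + 1) → F}

/-- the Gauss map: `w_p = φ_{p.2} D φ_{p.1} - φ_{p.1} D φ_{p.2}` -/
def kdW (h : IsFunctionFieldOver Qbar F x) (φ : Fin (r + 1) → F)
    (p : Fin (r + 1) × Fin (r + 1)) : F :=
  φ p.2 * kdDeriv h (φ p.1) - φ p.1 * kdDeriv h (φ p.2)

theorem kdW_diag (h : IsFunctionFieldOver Qbar F x) (φ : Fin (r + 1) → F) (b : Fin (r + 1)) :
    kdW h φ (b, b) = 0 := by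
  unfold kdW
  ring

/-- `w_{bc} = φ_c² D (φ_b / φ_c)` -/
theorem kdW_eq (h : IsFunctionFieldOver Qbar F x) (φ : Fin (r + 1) → F)
    (b c : Fin (r + 1)) (hc : φ c ≠ 0) :
    kdW h φ (b, c) = φ c ^ 2 * kdDeriv h (φ b / φ c) := by
  have h1 : φ b = φ b / φ c * φ c := by field_simp
  have h2 : kdDeriv h (φ b) = φ b / φ c * kdDeriv h (φ c) + φ c * kdDeriv h (φ b / φ c) := by
    conv_lhs => rw [h1]
    rw [Derivation.leibniz, smul_eq_mul, smul_eq_mul]
  unfold kdW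
  simp only
  rw [h2]
  field_simp
  ring

/-- `w_{bc} ≠ 0` for `b ≠ c` -/
theorem kdW_ne_zero (h : IsFunctionFieldOver Qbar F x) (hφ : IsEmbBasis P₀ e φ)
    {b c : Fin (r + 1)} (hbc : b ≠ c) : kdW h φ (b, c) ≠ 0 := by
  intro h0
  rw [kdW_eq h φ b c (hφ.ne_zero c)] at h0
  have h1 : kdDeriv h (φ b / φ c) = 0 := by
    rcases mul_eq_zero.mp h0 with h2 | h2
    · exact absurd (pow_eq_zero_iff (two_ne_zero)|>.mp h2) (hφ.ne_zero c)
    · exact h2
  obtain ⟨k, hk⟩ := kdDeriv_eq_zero h h1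
  have h3 : φ b = k • φ c := by
    rw [Algebra.smul_def, hk]
    field_simp [hφ.ne_zero c]
  have hli := hφ.linearIndependent
  rw [Fintype.linearIndependent_iff] at hli
  have h4 := hli (fun i => if i = b then 1 else if i = c then -k else 0) (by
    rw [Finset.sum_eq_add_of_mem b c (Finset.mem_univ _) (Finset.mem_univ _) hbc]
    · simp only [if_true, if_neg hbc.symm, one_smul, neg_smul]
      rw [h3]
      exact add_neg_cancel _
    · intro i _ hi
      simp only [if_neg hi.1, if_neg hi.2, zero_smul]) b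
  simp at h4

/-- regular functions form a ring (order form) -/
theorem kd_ord_mul_nonneg (P : Place Qbar F) {f g : F} (hf : 0 ≤ P.ord f) (hg : 0 ≤ P.ord g) :
    0 ≤ P.ord (f * g) :=
  Fermat.Agent.S24Res.ord_nonneg_of_mem P
    (mul_mem (Fermat.Agent.S24Res.mem_of_ord_nonneg P hf) (Fermat.Agent.S24Res.mem_of_ord_nonneg P hg))

theorem kd_ord_sub_nonneg (P : Place Qbar F) {f g : F} (hf : 0 ≤ P.ord f) (hg : 0 ≤ P.ord g) :
    0 ≤ P.ord (f - g) :=
  Fermat.Agent.S24Res.ord_nonneg_of_mem P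
    (sub_mem (Fermat.Agent.S24Res.mem_of_ord_nonneg P hf) (Fermat.Agent.S24Res.mem_of_ord_nonneg P hg))

/-- the `φ_b` are regular away from `P₀` -/
theorem kd_ord_phi_nonneg (hφ : IsEmbBasis P₀ e φ) {P : Place Qbar F} (hP : P ≠ P₀)
    (b : Fin (r + 1)) : 0 ≤ P.ord (φ b) := by
  have h1 := (mem_riemannRochSpace_iff.mp (hφ.mem b) P).resolve_left (hφ.ne_zero b)
  rwa [Finsupp.single_eq_of_ne hP, neg_zero] at h1

/-- at every place some `w_{bc}`, `b ≠ c`, has the minimal order `-2 (e P₀)(P) - ord_P (dx)` -/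
theorem kdW_exists_ord (hRR : IsRRField Qbar F) (h : IsFunctionFieldOver Qbar F x)
    (hφ : IsEmbBasis P₀ e φ) (he : 2 * genusFF Qbar F + 1 ≤ e) (P : Place Qbar F) :
    ∃ b c, b ≠ c ∧
      P.ord (kdW h φ (b, c)) = -(2 * (Finsupp.single P₀ (e : ℤ)) P) - kap x P := by
  have he' : 2 * genusFF Qbar F ≤ e := by omega
  have hord0 := hφ.ord_pivot hRR he' P
  obtain ⟨b, hb0, hb1⟩ := Fermat.Agent.S17.imm_exists_simple_coord hRR (Finsupp.single P₀ (e : ℤ)) P
    (by rw [Fermat.Agent.S17.imm_degree_single hRR]; exact_mod_cast he) φ hφ.span_eq'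
    (pivot φ P) (hφ.ne_zero _) hord0
  set a0 := pivot φ P with ha0
  have hba : b ≠ a0 := by
    rintro rfl
    apply hb0
    rw [div_self (hφ.ne_zero _), Pts.ev_one, one_smul, sub_self]
  refine ⟨b, a0, hba, ?_⟩
  set k := Pts.ev P (φ b / φ a0) with hk
  have hz : (φ b - k • φ a0) / φ a0 = φ b / φ a0 - algebraMap Qbar F k := by
    rw [Algebra.smul_def, sub_div, mul_div_assoc, div_self (hφ.ne_zero _), mul_one]
  have hdz : kdDeriv h ((φ b - k • φ a0) / φ a0) = kdDeriv h (φ b / φ a0) := by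
    rw [hz, map_sub, Derivation.map_algebraMap, sub_zero]
  have hne1 : P.ord ((φ b - k • φ a0) / φ a0) ≠ 0 := by rw [hb1]; exact one_ne_zero
  have h1 := kdDeriv_ord h P hne1
  have h2 := kdDeriv_ne_zero_of_ord h P hne1
  rw [hdz] at h1 h2
  rw [hb1] at h1
  rw [kdW_eq h φ b a0 (hφ.ne_zero _), P.ord_mul (pow_ne_zero 2 (hφ.ne_zero _)) h2, h1, pow_two,
    P.ord_mul (hφ.ne_zero _) (hφ.ne_zero _), hord0]
  ring

/-- `w_p` is regular at `P ≠ P₀` if `x - c` is a uniformizer at `P` -/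
theorem kdW_ord_nonneg (h : IsFunctionFieldOver Qbar F x) (hφ : IsEmbBasis P₀ e φ)
    {P : Place Qbar F} (hP : P ≠ P₀) (c : Qbar) (hπ : P.ord (x - algebraMap Qbar F c) = 1)
    (p : Fin (r + 1) × Fin (r + 1)) : 0 ≤ P.ord (kdW h φ p) := by
  unfold kdW
  exact kd_ord_sub_nonneg P
    (kd_ord_mul_nonneg P (kd_ord_phi_nonneg hφ hP _)
      (kdDeriv_ord_nonneg h P c hπ (kd_ord_phi_nonneg hφ hP _)))
    (kd_ord_mul_nonneg P (kd_ord_phi_nonneg hφ hP _)
      (kdDeriv_ord_nonneg h P c hπ (kd_ord_phi_nonneg hφ hP _)))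

/-- the value at `P` of a term of `theta` -/
theorem kdW_theta_term (hRR : IsRRField Qbar F) (h : IsFunctionFieldOver Qbar F x)
    (hφ : IsEmbBasis P₀ e φ) (he : 2 * genusFF Qbar F + 1 ≤ e)
    {P : Place Qbar F} (hP : P ≠ P₀) (c : Qbar) (hπ : P.ord (x - algebraMap Qbar F c) = 1)
    (p : Fin (r + 1) × Fin (r + 1)) :
    val P ((algebraMap Qbar F (coord φ P p.2) * φ p.1
        - algebraMap Qbar F (coord φ P p.1) * φ p.2)
          / (φ (pivot φ P) * (x - algebraMap Qbar F c)))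
      = val P (kdW h φ p) / val P (φ (pivot φ P)) ^ 2 := by
  have he' : 2 * genusFF Qbar F ≤ e := by omega
  have hA0 : P.ord (φ (pivot φ P)) = 0 := by
    rw [hφ.ord_pivot hRR he' P, Finsupp.single_eq_of_ne hP, neg_zero]
  set a0 := pivot φ P with ha0
  set A := Pts.ev P (φ a0) with hAdef
  have hA : A ≠ 0 := Pts.ev_ne_zero_of_ord_eq_zero hRR P (hφ.ne_zero _) hA0
  have hreg : ∀ b, 0 ≤ P.ord (φ b) := kd_ord_phi_nonneg hφ hP
  have hdreg : ∀ b, 0 ≤ P.ord (kdDeriv h (φ b)) := fun b => kdDeriv_ord_nonneg h P c hπ (hreg b)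
  have hcoord : ∀ b, coord φ P b = Pts.ev P (φ b) / A := fun b => Pts.ev_div hRR P (hreg b) hA0
  set k1 := coord φ P p.1 with hk1
  set k2 := coord φ P p.2 with hk2
  have hfe : algebraMap Qbar F k2 * φ p.1 - algebraMap Qbar F k1 * φ p.2
      = k2 • φ p.1 - k1 • φ p.2 := by
    rw [Algebra.smul_def, Algebra.smul_def]
  set f : F := k2 • φ p.1 - k1 • φ p.2 with hf
  have hsm : ∀ (k : Qbar) {g : F}, 0 ≤ P.ord g → 0 ≤ P.ord (k • g) := fun k g hg => by
    rw [Algebra.smul_def]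
    exact kd_ord_mul_nonneg P (by rw [ord_algebraMap_eq_zero]) hg
  have hf0 : 0 ≤ P.ord f := kd_ord_sub_nonneg P (hsm k2 (hreg _)) (hsm k1 (hreg _))
  have hfev : Pts.ev P f = 0 := by
    rw [hf, Pts.ev_sub hRR P (hsm k2 (hreg _)) (hsm k1 (hreg _)),
      Pts.ev_smul_const hRR P k2 (hreg _), Pts.ev_smul_const hRR P k1 (hreg _), hk1, hk2,
      hcoord, hcoord]
    field_simp
    ring
  obtain ⟨hq0, hq⟩ := kdDeriv_ev_div hRR h P c hπ hf0 hfev
  have hdf : kdDeriv h f = k2 • kdDeriv h (φ p.1) - k1 • kdDeriv h (φ p.2) := by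
    rw [hf, map_sub, Derivation.map_smul, Derivation.map_smul]
  have hdfev : Pts.ev P (kdDeriv h f)
      = k2 * Pts.ev P (kdDeriv h (φ p.1)) - k1 * Pts.ev P (kdDeriv h (φ p.2)) := by
    rw [hdf, Pts.ev_sub hRR P (hsm k2 (hdreg _)) (hsm k1 (hdreg _)),
      Pts.ev_smul_const hRR P k2 (hdreg _), Pts.ev_smul_const hRR P k1 (hdreg _)]
  have hwev : Pts.ev P (kdW h φ p)
      = Pts.ev P (φ p.2) * Pts.ev P (kdDeriv h (φ p.1))
        - Pts.ev P (φ p.1) * Pts.ev P (kdDeriv h (φ p.2)) := by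
    unfold kdW
    rw [Pts.ev_sub hRR P (kd_ord_mul_nonneg P (hreg _) (hdreg _))
      (kd_ord_mul_nonneg P (hreg _) (hdreg _)),
      Pts.ev_mul hRR P (hreg _) (hdreg _), Pts.ev_mul hRR P (hreg _) (hdreg _)]
  show Pts.ev P _ = Pts.ev P _ / A ^ 2
  rw [hfe, mul_comm (φ a0), ← div_div, Pts.ev_div hRR P hq0 hA0, hq, hdfev, hwev, hk1, hk2,
    hcoord, hcoord]
  field_simp
  rw [← hAdef]
  field_simp

/-- scaling a finite supremum -/
theorem kd_sup'_div {ι : Type*} (s : Finset ι) (hs : s.Nonempty) (g : ι → ℝ) {C : ℝ}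
    (hC : 0 ≤ C) : s.sup' hs (fun i => g i / C) = s.sup' hs g / C := by
  have hmono : Monotone fun t : ℝ => t / C := fun a b hab => div_le_div_of_nonneg_right hab hC
  exact (Finset.apply_sup'_eq_sup'_comp hs (fun t : ℝ => t / C)
    (fun a b => hmono.map_sup a b)).symm

/-- **the tangent length in terms of the Gauss map**:
`θ_v(P; x - c) = max_p |w_p(P)|_v / ‖φ(P)‖_v²` at a point `P ≠ P₀` where `x - c` is a
uniformizer. -/
theorem kdW_theta (𝔸 : AbsSys) (v : 𝔸.ι) (hRR : IsRRField Qbar F)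
    (h : IsFunctionFieldOver Qbar F x)
    (hφ : IsEmbBasis P₀ e φ) (he : 2 * genusFF Qbar F + 1 ≤ e)
    {P : Place Qbar F} (hP : P ≠ P₀) (c : Qbar) (hπ : P.ord (x - algebraMap Qbar F c) = 1) :
    theta 𝔸 v φ P (x - algebraMap Qbar F c)
      = (Finset.univ.sup' Finset.univ_nonempty fun p : Fin (r + 1) × Fin (r + 1) =>
          𝔸.abv v (val P (kdW h φ p))) / vnorm 𝔸 v (fun b => val P (φ b)) ^ 2 := by
  have he' : 2 * genusFF Qbar F ≤ e := by omega
  have hA0 : P.ord (φ (pivot φ P)) = 0 := by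
    rw [hφ.ord_pivot hRR he' P, Finsupp.single_eq_of_ne hP, neg_zero]
  have hA : Pts.ev P (φ (pivot φ P)) ≠ 0 :=
    Pts.ev_ne_zero_of_ord_eq_zero hRR P (hφ.ne_zero _) hA0
  have hApos : 0 < 𝔸.abv v (val P (φ (pivot φ P))) := (𝔸.abv v).pos hA
  have hreg : ∀ b, 0 ≤ P.ord (φ b) := kd_ord_phi_nonneg hφ hP
  unfold theta
  have h1 : (fun p : Fin (r + 1) × Fin (r + 1) =>
      𝔸.abv v (val P ((algebraMap Qbar F (coord φ P p.2) * φ p.1
        - algebraMap Qbar F (coord φ P p.1) * φ p.2)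
          / (φ (pivot φ P) * (x - algebraMap Qbar F c)))))
      = fun p => 𝔸.abv v (val P (kdW h φ p)) / 𝔸.abv v (val P (φ (pivot φ P))) ^ 2 := by
    funext p
    rw [kdW_theta_term hRR h hφ he hP c hπ p, map_div₀, map_pow]
  have h2 : vnorm 𝔸 v (coord φ P)
      = vnorm 𝔸 v (fun b => val P (φ b)) / 𝔸.abv v (val P (φ (pivot φ P))) := by
    unfold vnorm
    rw [← kd_sup'_div _ _ _ hApos.le]
    congr 1
    funext b
    show 𝔸.abv v (Pts.ev P (φ b / φ (pivot φ P))) = _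
    rw [Pts.ev_div hRR P (hreg b) hA0, map_div₀]
  rw [h1, kd_sup'_div _ _ _ (pow_nonneg hApos.le 2), h2]
  have hV : 0 < vnorm 𝔸 v (fun b => val P (φ b)) := by
    refine lt_of_lt_of_le hApos (abv_le_vnorm 𝔸 v (fun b => val P (φ b)) (pivot φ P))
  field_simp

/-- the supremum over all pairs is the supremum over an enumeration of the off-diagonal pairs -/
theorem kdW_sup_eq (𝔸 : AbsSys) (v : 𝔸.ι) (h : IsFunctionFieldOver Qbar F x)
    (φ : Fin (r + 1) → F) (P : Place Qbar F) {m : ℕ}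
    (E : Fin (m + 1) ≃ {p : Fin (r + 1) × Fin (r + 1) // p.1 ≠ p.2}) :
    (Finset.univ.sup' Finset.univ_nonempty fun p : Fin (r + 1) × Fin (r + 1) =>
        𝔸.abv v (val P (kdW h φ p)))
      = vnorm 𝔸 v (fun i => val P (kdW h φ (E i).1)) := by
  apply le_antisymm
  · refine Finset.sup'_le _ _ fun p _ => ?_
    by_cases hp : p.1 = p.2
    · have h0 : kdW h φ p = 0 := by
        have := kdW_diag h φ p.1
        rw [show (p.1, p.1) = p from Prod.ext rfl hp] at this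
        exact this
      rw [h0]
      show 𝔸.abv v (Pts.ev P 0) ≤ _
      rw [Pts.ev_zero, map_zero]
      exact vnorm_nonneg 𝔸 v _
    · have := abv_le_vnorm 𝔸 v (fun i => val P (kdW h φ (E i).1)) (E.symm ⟨p, hp⟩)
      simpa using this
  · refine Finset.sup'_le _ _ fun i _ => ?_
    exact Finset.le_sup' (fun p : Fin (r + 1) × Fin (r + 1) => 𝔸.abv v (val P (kdW h φ p)))
      (Finset.mem_univ (E i).1)

/-- **`log θ_v(P; x - c) = log ‖w(P)‖_v - 2 log ‖φ(P)‖_v`** at a point `P ≠ P₀` where `x - c` is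
a uniformizer, for an enumeration `w` of the `w_{bc}`, `b ≠ c`. -/
theorem kdW_log_theta (𝔸 : AbsSys) (v : 𝔸.ι) (hRR : IsRRField Qbar F)
    (h : IsFunctionFieldOver Qbar F x)
    (hφ : IsEmbBasis P₀ e φ) (he : 2 * genusFF Qbar F + 1 ≤ e)
    {P : Place Qbar F} (hP : P ≠ P₀) (c : Qbar) (hπ : P.ord (x - algebraMap Qbar F c) = 1)
    {m : ℕ} (E : Fin (m + 1) ≃ {p : Fin (r + 1) × Fin (r + 1) // p.1 ≠ p.2}) :
    Real.log (theta 𝔸 v φ P (x - algebraMap Qbar F c))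
      = Real.log (vnorm 𝔸 v (fun i => val P (kdW h φ (E i).1))) - 2 * lamloc 𝔸 v φ P := by
  rw [kdW_theta 𝔸 v hRR h hφ he hP c hπ, kdW_sup_eq 𝔸 v h φ P E]
  have hV : 0 < vnorm 𝔸 v (fun b => val P (φ b)) := by
    have h1 := abv_le_vnorm 𝔸 v (fun b => val P (φ b)) 0
    have h2 : 𝔸.abv v (val P (φ 0)) = 1 := by
      rw [hφ.zero_eq_one]
      show 𝔸.abv v (Pts.ev P 1) = 1
      rw [Pts.ev_one, map_one]
    rw [h2] at h1
    exact lt_of_lt_of_le one_pos h1
  have hS : 0 < vnorm 𝔸 v (fun i => val P (kdW h φ (E i).1)) := by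
    obtain ⟨b, c', hbc, hord⟩ := kdW_exists_ord hRR h hφ he P
    rw [Finsupp.single_eq_of_ne hP, kd_kap_eq_zero h P c hπ] at hord
    have hord0 : P.ord (kdW h φ (b, c')) = 0 := by rw [hord]; ring
    have hev := Pts.ev_ne_zero_of_ord_eq_zero hRR P (kdW_ne_zero h hφ hbc) hord0
    have h1 := abv_le_vnorm 𝔸 v (fun i => val P (kdW h φ (E i).1)) (E.symm ⟨(b, c'), hbc⟩)
    simp only [Equiv.apply_symm_apply] at h1
    exact lt_of_lt_of_le ((𝔸.abv v).pos hev) h1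
  rw [Real.log_div hS.ne' (pow_ne_zero 2 hV.ne'), Real.log_pow]
  unfold lamloc
  push_cast
  ring

end Fermat.Agent.S17.Pos
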