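import Mathlib
import Fermat.Agent.S17.H.Pos.Kappa.Deriv

set_option autoImplicit false
set_option linter.unusedSectionVars false

/-!
# S17, package H, seat GB-KAPPA: the derivation `d/dx` and semilinear automorphisms

`K` algebraically closed of characteristic `0`, `F` a function field over `K`
(`h : IsFunctionFieldOver K F x`), `g : SemilinearAut K F` with `g • x = x`.

* `kdDeriv_smul`   : `g • (d f/dx) = d (g • f)/dx`;
* `kd_kap_smul`    : `ord_{g v} (dx) = ord_v (dx)`;
* `kd_divD_smul`   : `g • div (dx) = div (dx)`.
-/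

noncomputable section

open AlgebraicCurve KaehlerDifferential

namespace Fermat.Agent.S17.Pos

open Fermat.Agent.S24Diff Fermat.Agent.GenusEq

variable {K F : Type*} [Field K] [Field F] [Algebra K F] [IsAlgClosed K] [CharZero K] {x : F}

theorem kd_inv_smul_eq (g : SemilinearAut K F) (hg : g • x = x) : g⁻¹ • x = x := by
  have h1 : g⁻¹ • (g • x) = g⁻¹ • x := by rw [hg]
  rw [inv_smul_smul] at h1
  exact h1.symm

/-- the conjugate `f ↦ g⁻¹ • (d (g • f)/dx)` of the derivation `d/dx`, as a linear map -/
def kdConjLin (h : IsFunctionFieldOver K F x) (g : SemilinearAut K F) : F →ₗ[K] F where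
  toFun f := g⁻¹ • kdDeriv h (g • f)
  map_add' f₁ f₂ := by
    rw [smul_add, map_add, smul_add]
  map_smul' a f := by
    have h1 : g • (a • f) = (SemilinearAut.baseAut g a) • (g • f) := by
      rw [Algebra.smul_def, Algebra.smul_def, smul_mul', SemilinearAut.smul_algebraMap]
    rw [RingHom.id_apply, h1, Derivation.map_smul, Algebra.smul_def, Algebra.smul_def, smul_mul',
      SemilinearAut.smul_algebraMap, SemilinearAut.baseAut_inv, RingEquiv.symm_apply_apply]

theorem kdConjLin_apply (h : IsFunctionFieldOver K F x) (g : SemilinearAut K F) (f : F) :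
    kdConjLin h g f = g⁻¹ • kdDeriv h (g • f) := rfl

/-- the conjugate of `d/dx` is a derivation -/
def kdConj (h : IsFunctionFieldOver K F x) (g : SemilinearAut K F) : Derivation K F F :=
  Derivation.mk' (kdConjLin h g) fun a b => by
    rw [kdConjLin_apply, kdConjLin_apply, kdConjLin_apply, smul_mul', Derivation.leibniz,
      smul_add, smul_eq_mul, smul_eq_mul, smul_eq_mul, smul_eq_mul, smul_mul', smul_mul',
      inv_smul_smul, inv_smul_smul]

theorem kdConj_apply (h : IsFunctionFieldOver K F x) (g : SemilinearAut K F) (f : F) :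
    kdConj h g f = g⁻¹ • kdDeriv h (g • f) := rfl

/-- `d/dx` commutes with the semilinear automorphisms which fix `x` -/
theorem kdDeriv_smul (h : IsFunctionFieldOver K F x) (g : SemilinearAut K F) (hg : g • x = x)
    (f : F) : g • kdDeriv h f = kdDeriv h (g • f) := by
  have h1 := kdDeriv_eq_mul h (kdConj h g) f
  rw [kdConj_apply, kdConj_apply, hg, kdDeriv_self, smul_one, mul_one] at h1
  rw [← h1, smul_inv_smul]

/-- the order of `dx` is invariant under the semilinear automorphisms which fix `x` -/
theorem kd_kap_smul (h : IsFunctionFieldOver K F x) (g : SemilinearAut K F) (hg : g • x = x)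
    (v : Place K F) : GenusEq.kap x (g • v) = GenusEq.kap x v := by
  rcases Fermat.Agent.S24Res.exists_ord_sub_pos_or_neg h v (not_mem_range_of_ff h) with
    ⟨a, ha⟩ | hneg
  · have h1 := SemilinearAut.ord_smul g v (x - algebraMap K F a)
    rw [smul_sub, hg, SemilinearAut.smul_algebraMap] at h1
    rw [kap_of_pos h v a ha, kap_of_pos h (g • v) (SemilinearAut.baseAut g a) (by rw [h1]; exact ha),
      h1]
  · have h1 := SemilinearAut.ord_smul g v x
    rw [hg] at h1
    rw [kap_of_neg h v hneg, kap_of_neg h (g • v) (by rw [h1]; exact hneg), h1]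

/-- the divisor of `dx` is invariant under the semilinear automorphisms which fix `x` -/
theorem kd_divD_smul (h : IsFunctionFieldOver K F x) (g : SemilinearAut K F) (hg : g • x = x) :
    g • GenusEq.divD h = GenusEq.divD h := by
  ext w
  rw [SemilinearAut.divisor_smul_apply]
  show GenusEq.kap x (g⁻¹ • w) = GenusEq.kap x w
  exact kd_kap_smul h g⁻¹ (kd_inv_smul_eq g hg) w

end Fermat.Agent.S17.Pos
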