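import Mathlib
import Fermat.Agent.S17.H.Pos.Kappa.Fam
import Fermat.Agent.S17.H.Pos.Kappa.Galois

set_option autoImplicit false

/-!
# S17, package H, seat GB-KAPPA: invariance of the Gauss map and of its polar divisor

`g : SemilinearAut Qbar F` fixing `x`, the `φ_b` and `P₀`:

* `kdW_smul`       : `g • w_p = w_p`;
* `kd_polar_smul`  : `g • (n P₀ + div (dx)) = n P₀ + div (dx)`;
* `kd_polar_degree`: `deg (2 e P₀ + div (dx)) = 2 e + 2 g - 2`;
* `kd_polar_apply` : `(2 e P₀ + div (dx))(P) = 2 (e P₀)(P) + ord_P (dx)`.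
-/

noncomputable section

open AlgebraicCurve KaehlerDifferential

namespace Fermat.Agent.S17.Pos

open Fermat.Agent.S24Diff Fermat.Agent.GenusEq Fermat.Agent.RR

variable {F : Type*} [Field F] [Algebra Qbar F] {x : F}
variable {P₀ : Place Qbar F} {e r : ℕ} {φ : Fin (r + 1) → F}

/-- the Gauss map is invariant -/
theorem kdW_smul (h : IsFunctionFieldOver Qbar F x) (g : SemilinearAut Qbar F)
    (hx : g • x = x) (hg : ∀ b, g • φ b = φ b) (p : Fin (r + 1) × Fin (r + 1)) :
    g • kdW h φ p = kdW h φ p := by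
  unfold kdW
  rw [smul_sub, smul_mul', smul_mul', kdDeriv_smul h g hx, kdDeriv_smul h g hx, hg, hg]

/-- the polar divisor `n P₀ + div (dx)` -/
def kdPolar (h : IsFunctionFieldOver Qbar F x) (P₀ : Place Qbar F) (n : ℤ) : Divisor Qbar F :=
  Finsupp.single P₀ n + divD h

theorem kdPolar_smul (h : IsFunctionFieldOver Qbar F x) (g : SemilinearAut Qbar F)
    (hx : g • x = x) (hP₀ : g • P₀ = P₀) (n : ℤ) :
    g • kdPolar h P₀ n = kdPolar h P₀ n := by
  unfold kdPolar
  rw [smul_add, SemilinearAut.smul_single, kd_divD_smul h g hx, hP₀]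

theorem kdPolar_degree (hRR : IsRRField Qbar F) (h : IsFunctionFieldOver Qbar F x)
    (P₀ : Place Qbar F) (n : ℤ) :
    Divisor.degree (kdPolar h P₀ n) = n + 2 * (genusFF Qbar F : ℤ) - 2 := by
  unfold kdPolar
  rw [map_add, degree_single_one hRR, degree_divD h]
  ring

theorem kdPolar_apply (h : IsFunctionFieldOver Qbar F x) (P₀ : Place Qbar F) (e : ℕ)
    (P : Place Qbar F) :
    kdPolar h P₀ (2 * (e : ℤ)) P = 2 * (Finsupp.single P₀ (e : ℤ) : Divisor Qbar F) P + kap x P := by
  classical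
  unfold kdPolar
  rw [Finsupp.add_apply, divD_apply, Finsupp.single_apply, Finsupp.single_apply]
  split_ifs
  · rfl
  · simp only [mul_zero]
    rfl

theorem kdPolar_apply_of_ne (h : IsFunctionFieldOver Qbar F x) {P₀ P : Place Qbar F}
    (hP : P ≠ P₀) (n : ℤ) : kdPolar h P₀ n P = kap x P := by
  unfold kdPolar
  rw [Finsupp.add_apply, Finsupp.single_eq_of_ne hP, zero_add]
  rfl

end Fermat.Agent.S17.Pos
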